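/-
Combinatorics of the coset space `SL(2,ℤ) ⧸ Γ₀(N)`: basic coset criterion.
-/
import Mathlib

set_option autoImplicit false

namespace Fermat.Agent.S20_helper27

open Matrix MatrixGroups CongruenceSubgroup ModularGroup

variable (N : ℕ)

/-- The coset space `SL(2,ℤ) ⧸ Γ₀(N)`. -/
abbrev XN := SL(2, ℤ) ⧸ Gamma0 N

variable {N}

/-- The `(1,0)` entry of `g⁻¹ * h`. -/
theorem inv_mul_apply_one_zero (g h : SL(2, ℤ)) :
    (g⁻¹ * h) 1 0 = g 0 0 * h 1 0 - g 1 0 * h 0 0 := by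
  rw [Matrix.SpecialLinearGroup.coe_mul, Matrix.SpecialLinearGroup.coe_inv,
    Matrix.mul_apply, Fin.sum_univ_two, Matrix.adjugate_fin_two]
  simp only [Matrix.of_apply, Matrix.cons_val_one, Matrix.cons_val_zero]
  ring

theorem mem_Gamma0_iff (A : SL(2, ℤ)) : A ∈ Gamma0 N ↔ ((A 1 0 : ℤ) : ZMod N) = 0 :=
  Iff.rfl

/-- Coset criterion: `gΓ₀(N) = hΓ₀(N)` iff the first columns are proportional mod `N`. -/
theorem mk_eq_mk_iff (g h : SL(2, ℤ)) :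
    (QuotientGroup.mk g : XN N) = QuotientGroup.mk h ↔
      ((g 0 0 : ℤ) : ZMod N) * ((h 1 0 : ℤ) : ZMod N)
        = ((g 1 0 : ℤ) : ZMod N) * ((h 0 0 : ℤ) : ZMod N) := by
  rw [QuotientGroup.eq, mem_Gamma0_iff, inv_mul_apply_one_zero]
  push_cast
  exact sub_eq_zero

theorem det_eq (g : SL(2, ℤ)) : g 0 0 * g 1 1 - g 0 1 * g 1 0 = 1 := by
  have := g.det_coe
  rw [Matrix.det_fin_two] at this
  exact this

theorem det_eq_zmod (g : SL(2, ℤ)) :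
    ((g 0 0 : ℤ) : ZMod N) * ((g 1 1 : ℤ) : ZMod N)
      - ((g 0 1 : ℤ) : ZMod N) * ((g 1 0 : ℤ) : ZMod N) = 1 := by
  have := congrArg (fun x : ℤ => (x : ZMod N)) (det_eq g)
  simpa using this

/-- Build an element of `SL(2,ℤ)` from a Bezout relation. -/
def mkSL (a b c d : ℤ) (h : a * d - b * c = 1) : SL(2, ℤ) :=
  ⟨!![a, b; c, d], by rw [Matrix.det_fin_two_of]; exact h⟩

@[simp] theorem mkSL_00 (a b c d : ℤ) (h : a * d - b * c = 1) : (mkSL a b c d h) 0 0 = a := rfl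
@[simp] theorem mkSL_01 (a b c d : ℤ) (h : a * d - b * c = 1) : (mkSL a b c d h) 0 1 = b := rfl
@[simp] theorem mkSL_10 (a b c d : ℤ) (h : a * d - b * c = 1) : (mkSL a b c d h) 1 0 = c := rfl
@[simp] theorem mkSL_11 (a b c d : ℤ) (h : a * d - b * c = 1) : (mkSL a b c d h) 1 1 = d := rfl

theorem smul_mk (g h : SL(2, ℤ)) : g • (QuotientGroup.mk h : XN N) = QuotientGroup.mk (g * h) :=
  rfl

theorem S_mul_apply (g : SL(2, ℤ)) :
    (S * g) 0 0 = - g 1 0 ∧ (S * g) 1 0 = g 0 0 := by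
  rw [Matrix.SpecialLinearGroup.coe_mul, ModularGroup.coe_S]
  simp [Matrix.mul_apply, Fin.sum_univ_two]

theorem T_mul_apply (g : SL(2, ℤ)) :
    (T * g) 0 0 = g 0 0 + g 1 0 ∧ (T * g) 1 0 = g 1 0 := by
  rw [Matrix.SpecialLinearGroup.coe_mul, ModularGroup.coe_T]
  simp [Matrix.mul_apply, Fin.sum_univ_two]

theorem T_zpow_mul_apply (n : ℤ) (g : SL(2, ℤ)) :
    (T ^ n * g) 0 0 = g 0 0 + n * g 1 0 ∧ (T ^ n * g) 1 0 = g 1 0 := by
  rw [Matrix.SpecialLinearGroup.coe_mul, ModularGroup.coe_T_zpow]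
  simp [Matrix.mul_apply, Fin.sum_univ_two]

end Fermat.Agent.S20_helper27
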