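/-
Fixed points of `S` and `S * T` on `SL(2,ℤ) ⧸ Γ₀(N)` are counted by `nuTwo N`, `nuThree N`.
-/
import Fermat.Agent.S20_helper27.Basic
import Fermat.Prelude.Def_ModularCurve_GenusNumerics

set_option autoImplicit false

namespace Fermat.Agent.S20_helper27

open Matrix MatrixGroups CongruenceSubgroup ModularGroup

variable {N : ℕ}

theorem S_smul_mk_eq_iff (g : SL(2, ℤ)) :
    S • (QuotientGroup.mk g : XN N) = QuotientGroup.mk g ↔
      ((g 0 0 : ℤ) : ZMod N) ^ 2 + ((g 1 0 : ℤ) : ZMod N) ^ 2 = 0 := by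
  rw [smul_mk, mk_eq_mk_iff, (S_mul_apply g).1, (S_mul_apply g).2]
  push_cast
  constructor
  · intro h; linear_combination -h
  · intro h; linear_combination -h

theorem ST_mul_apply (g : SL(2, ℤ)) :
    (S * T * g) 0 0 = - g 1 0 ∧ (S * T * g) 1 0 = g 0 0 + g 1 0 := by
  rw [mul_assoc]
  refine ⟨?_, ?_⟩
  · rw [(S_mul_apply (T * g)).1, (T_mul_apply g).2]
  · rw [(S_mul_apply (T * g)).2, (T_mul_apply g).1]

theorem ST_smul_mk_eq_iff (g : SL(2, ℤ)) :
    (S * T) • (QuotientGroup.mk g : XN N) = QuotientGroup.mk g ↔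
      ((g 0 0 : ℤ) : ZMod N) ^ 2 + ((g 0 0 : ℤ) : ZMod N) * ((g 1 0 : ℤ) : ZMod N)
        + ((g 1 0 : ℤ) : ZMod N) ^ 2 = 0 := by
  rw [smul_mk, mk_eq_mk_iff, (ST_mul_apply g).1, (ST_mul_apply g).2]
  push_cast
  constructor
  · intro h; linear_combination -h
  · intro h; linear_combination -h

/-- The coset of `[[u, -1], [1, 0]]`. -/
noncomputable def pt (u : ZMod N) : XN N :=
  QuotientGroup.mk (mkSL (u.cast : ℤ) (-1) 1 0 (by ring))

theorem pt_eq_mk_iff (u : ZMod N) (g : SL(2, ℤ)) :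
    pt u = (QuotientGroup.mk g : XN N) ↔ u * ((g 1 0 : ℤ) : ZMod N) = ((g 0 0 : ℤ) : ZMod N) := by
  rw [pt, mk_eq_mk_iff]
  simp

theorem pt_injective : Function.Injective (pt : ZMod N → XN N) := by
  intro u v h
  have h' := (pt_eq_mk_iff u (mkSL (v.cast : ℤ) (-1) 1 0 (by ring))).1 h
  simpa using h'

theorem S_smul_pt_iff (u : ZMod N) : S • pt u = pt u ↔ u ^ 2 + 1 = 0 := by
  rw [pt, S_smul_mk_eq_iff]
  simp

theorem ST_smul_pt_iff (u : ZMod N) : (S * T) • pt u = pt u ↔ u ^ 2 + u + 1 = 0 := by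
  rw [pt, ST_smul_mk_eq_iff]
  simp

/-- If `a² + c² = 0` for the first column of `g`, the coset of `g` is `pt u` for some `u`. -/
theorem exists_pt_of_S_fixed (g : SL(2, ℤ))
    (h : ((g 0 0 : ℤ) : ZMod N) ^ 2 + ((g 1 0 : ℤ) : ZMod N) ^ 2 = 0) :
    ∃ u : ZMod N, pt u = (QuotientGroup.mk g : XN N) := by
  have hd := det_eq_zmod (N := N) g
  set a := ((g 0 0 : ℤ) : ZMod N)
  set b := ((g 0 1 : ℤ) : ZMod N)
  set c := ((g 1 0 : ℤ) : ZMod N)
  set d := ((g 1 1 : ℤ) : ZMod N)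
  refine ⟨-(c * d + a * b), ?_⟩
  rw [pt_eq_mk_iff]
  linear_combination (-d) * h + a * hd

theorem exists_pt_of_ST_fixed (g : SL(2, ℤ))
    (h : ((g 0 0 : ℤ) : ZMod N) ^ 2 + ((g 0 0 : ℤ) : ZMod N) * ((g 1 0 : ℤ) : ZMod N)
        + ((g 1 0 : ℤ) : ZMod N) ^ 2 = 0) :
    ∃ u : ZMod N, pt u = (QuotientGroup.mk g : XN N) := by
  have hd := det_eq_zmod (N := N) g
  set a := ((g 0 0 : ℤ) : ZMod N)
  set b := ((g 0 1 : ℤ) : ZMod N)
  set c := ((g 1 0 : ℤ) : ZMod N)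
  set d := ((g 1 1 : ℤ) : ZMod N)
  -- a = a(ad - bc) = a²d - abc = -(ac + c²)d - abc = -c(ad + cd + ab)
  refine ⟨-(a * d + c * d + a * b), ?_⟩
  rw [pt_eq_mk_iff]
  linear_combination (-d) * h + a * hd

/-- Fixed points of `S` on `SL(2,ℤ) ⧸ Γ₀(N)` correspond to square roots of `-1` mod `N`. -/
noncomputable def fixedSEquiv :
    {u : ZMod N // u ^ 2 + 1 = 0} ≃ {x : XN N // S • x = x} :=
  Equiv.ofBijective (fun u => ⟨pt u.1, (S_smul_pt_iff u.1).2 u.2⟩) <| by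
    constructor
    · intro u v h
      exact Subtype.ext (pt_injective (congrArg Subtype.val h))
    · rintro ⟨x, hx⟩
      induction x using QuotientGroup.induction_on with
      | H g =>
        obtain ⟨u, hu⟩ := exists_pt_of_S_fixed g ((S_smul_mk_eq_iff g).1 hx)
        refine ⟨⟨u, ?_⟩, Subtype.ext hu⟩
        rw [← S_smul_pt_iff, hu]; exact hx

/-- Fixed points of `S * T` on `SL(2,ℤ) ⧸ Γ₀(N)` correspond to roots of `x² + x + 1` mod `N`. -/
noncomputable def fixedSTEquiv :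
    {u : ZMod N // u ^ 2 + u + 1 = 0} ≃ {x : XN N // (S * T) • x = x} :=
  Equiv.ofBijective (fun u => ⟨pt u.1, (ST_smul_pt_iff u.1).2 u.2⟩) <| by
    constructor
    · intro u v h
      exact Subtype.ext (pt_injective (congrArg Subtype.val h))
    · rintro ⟨x, hx⟩
      induction x using QuotientGroup.induction_on with
      | H g =>
        obtain ⟨u, hu⟩ := exists_pt_of_ST_fixed g ((ST_smul_mk_eq_iff g).1 hx)
        refine ⟨⟨u, ?_⟩, Subtype.ext hu⟩
        rw [← ST_smul_pt_iff, hu]; exact hx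

theorem card_fixed_S (N : ℕ) :
    Nat.card {x : XN N // S • x = x} = ModularCurve.nuTwo N :=
  (Nat.card_congr fixedSEquiv).symm

theorem card_fixed_ST (N : ℕ) :
    Nat.card {x : XN N // (S * T) • x = x} = ModularCurve.nuThree N :=
  (Nat.card_congr fixedSTEquiv).symm

end Fermat.Agent.S20_helper27
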