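/-
Counting primitive vectors in `(ℤ/N)²` : `#Prim N = φ(N) ψ(N)`.
-/
import Mathlib
import Fermat.Prelude.Def_ModularCurve_GenusNumerics

set_option autoImplicit false

namespace Fermat.Agent.S20_helper27

open Nat

/-- Primitive (unimodular) vectors in `(ℤ/N)²`. -/
abbrev Prim (N : ℕ) := {v : ZMod N × ZMod N // IsCoprime v.1 v.2}

noncomputable instance (N : ℕ) [NeZero N] : Fintype (Prim N) := Fintype.ofFinite _

/-! ### CRT -/

theorem isCoprime_prod_iff {R S : Type*} [CommRing R] [CommRing S] (a c : R × S) :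
    IsCoprime a c ↔ IsCoprime a.1 c.1 ∧ IsCoprime a.2 c.2 := by
  constructor
  · rintro ⟨x, y, h⟩
    exact ⟨⟨x.1, y.1, congrArg Prod.fst h⟩, ⟨x.2, y.2, congrArg Prod.snd h⟩⟩
  · rintro ⟨⟨x1, y1, h1⟩, ⟨x2, y2, h2⟩⟩
    exact ⟨(x1, x2), (y1, y2), Prod.ext h1 h2⟩

theorem isCoprime_map_equiv {R S : Type*} [CommRing R] [CommRing S] (e : R ≃+* S) (a c : R) :
    IsCoprime (e a) (e c) ↔ IsCoprime a c := by
  constructor
  · intro h
    have := h.map e.symm.toRingHom
    simpa using this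
  · intro h
    exact h.map e.toRingHom

/-- CRT for primitive vectors. -/
noncomputable def primProdEquiv {m n : ℕ} (h : m.Coprime n) : Prim (m * n) ≃ Prim m × Prim n where
  toFun v :=
    (⟨((ZMod.chineseRemainder h v.1.1).1, (ZMod.chineseRemainder h v.1.2).1),
        ((isCoprime_prod_iff _ _).1 ((isCoprime_map_equiv (ZMod.chineseRemainder h) _ _).2 v.2)).1⟩,
     ⟨((ZMod.chineseRemainder h v.1.1).2, (ZMod.chineseRemainder h v.1.2).2),
        ((isCoprime_prod_iff _ _).1 ((isCoprime_map_equiv (ZMod.chineseRemainder h) _ _).2 v.2)).2⟩)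
  invFun w :=
    ⟨((ZMod.chineseRemainder h).symm (w.1.1.1, w.2.1.1),
      (ZMod.chineseRemainder h).symm (w.1.1.2, w.2.1.2)), by
        rw [← isCoprime_map_equiv (ZMod.chineseRemainder h)]
        simp only [RingEquiv.apply_symm_apply]
        exact (isCoprime_prod_iff _ _).2 ⟨w.1.2, w.2.2⟩⟩
  left_inv v := by
    apply Subtype.ext
    simp
  right_inv w := by
    obtain ⟨⟨⟨a1, c1⟩, h1⟩, ⟨⟨a2, c2⟩, h2⟩⟩ := w
    simp

theorem card_prim_mul {m n : ℕ} (h : m.Coprime n) :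
    Nat.card (Prim (m * n)) = Nat.card (Prim m) * Nat.card (Prim n) := by
  rw [Nat.card_congr (primProdEquiv h), Nat.card_prod]

/-! ### Prime powers -/

section PrimePower

variable {p k : ℕ}

theorem isUnit_zmod_prime_pow_iff (hp : p.Prime) (hk : 0 < k) (x : ZMod (p ^ k)) :
    IsUnit x ↔ ¬ p ∣ x.val := by
  have : NeZero (p ^ k) := ⟨pow_ne_zero _ hp.ne_zero⟩
  conv_lhs => rw [← ZMod.natCast_zmod_val x]
  rw [ZMod.isUnit_iff_coprime, Nat.coprime_pow_right_iff hk, Nat.coprime_comm,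
    hp.coprime_iff_not_dvd]

theorem isCoprime_zmod_prime_pow_iff (hp : p.Prime) (hk : 0 < k) (a c : ZMod (p ^ k)) :
    IsCoprime a c ↔ ¬ (¬ IsUnit a ∧ ¬ IsUnit c) := by
  have : NeZero (p ^ k) := ⟨pow_ne_zero _ hp.ne_zero⟩
  constructor
  · rintro ⟨x, y, hxy⟩ ⟨ha, hc⟩
    rw [isUnit_zmod_prime_pow_iff hp hk, not_not] at ha hc
    have h : ((x.val * a.val + y.val * c.val : ℕ) : ZMod (p ^ k)) = ((1 : ℕ) : ZMod (p ^ k)) := by
      push_cast
      simp only [ZMod.natCast_zmod_val]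
      exact hxy
    rw [ZMod.natCast_eq_natCast_iff] at h
    have h1 : p ∣ x.val * a.val + y.val * c.val :=
      dvd_add (dvd_mul_of_dvd_right ha _) (dvd_mul_of_dvd_right hc _)
    have h2 : p ∣ 1 := by
      have h3 : p ∣ p ^ k := dvd_pow_self p hk.ne'
      have h4 := (h.of_dvd h3).symm.trans ((Nat.modEq_zero_iff_dvd).2 h1)
      exact (Nat.modEq_zero_iff_dvd).1 h4
    exact hp.one_lt.ne' (Nat.dvd_one.1 h2)
  · intro h
    by_cases ha : IsUnit a
    · obtain ⟨u, rfl⟩ := ha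
      exact ⟨(u⁻¹ : (ZMod (p ^ k))ˣ), 0, by simp⟩
    · have hc : IsUnit c := by
        by_contra hc
        exact h ⟨ha, hc⟩
      obtain ⟨u, rfl⟩ := hc
      exact ⟨0, (u⁻¹ : (ZMod (p ^ k))ˣ), by simp⟩

/-- Units as a subtype. -/
noncomputable def unitsEquivSubtype (R : Type*) [Monoid R] : Rˣ ≃ {x : R // IsUnit x} where
  toFun u := ⟨u, u.isUnit⟩
  invFun x := x.2.unit
  left_inv u := by ext; simp
  right_inv x := by ext; simp

theorem card_nonunits (hp : p.Prime) (hk : 0 < k) :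
    Nat.card {x : ZMod (p ^ k) // ¬ IsUnit x} = p ^ (k - 1) := by
  have : NeZero (p ^ k) := ⟨pow_ne_zero _ hp.ne_zero⟩
  classical
  rw [Nat.card_eq_fintype_card, Fintype.card_subtype_compl,
    ← Fintype.card_congr (unitsEquivSubtype (ZMod (p ^ k))), ZMod.card_units_eq_totient,
    ZMod.card, Nat.totient_prime_pow hp hk]
  obtain ⟨j, rfl⟩ : ∃ j, k = j + 1 := ⟨k - 1, by omega⟩
  obtain ⟨r, rfl⟩ : ∃ r, p = r + 1 := ⟨p - 1, by have := hp.pos; omega⟩
  simp only [Nat.add_sub_cancel]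
  rw [pow_succ]
  apply Nat.sub_eq_of_eq_add
  ring

theorem card_prim_prime_pow (hp : p.Prime) (hk : 0 < k) :
    Nat.card (Prim (p ^ k)) = (p ^ k) ^ 2 - (p ^ (k - 1)) ^ 2 := by
  have : NeZero (p ^ k) := ⟨pow_ne_zero _ hp.ne_zero⟩
  classical
  have e1 : Prim (p ^ k) ≃
      {v : ZMod (p ^ k) × ZMod (p ^ k) // ¬ (¬ IsUnit v.1 ∧ ¬ IsUnit v.2)} :=
    Equiv.subtypeEquivRight fun v => isCoprime_zmod_prime_pow_iff hp hk v.1 v.2
  have e2 : {v : ZMod (p ^ k) × ZMod (p ^ k) // (¬ IsUnit v.1 ∧ ¬ IsUnit v.2)} ≃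
      {x : ZMod (p ^ k) // ¬ IsUnit x} × {x : ZMod (p ^ k) // ¬ IsUnit x} :=
    Equiv.subtypeProdEquivProd (p := fun x : ZMod (p ^ k) => ¬ IsUnit x)
      (q := fun x : ZMod (p ^ k) => ¬ IsUnit x)
  have h2 : Fintype.card {v : ZMod (p ^ k) × ZMod (p ^ k) // (¬ IsUnit v.1 ∧ ¬ IsUnit v.2)}
      = (p ^ (k - 1)) ^ 2 := by
    rw [← Nat.card_eq_fintype_card, Nat.card_congr e2, Nat.card_prod, card_nonunits hp hk, sq]
  rw [Nat.card_congr e1, Nat.card_eq_fintype_card, Fintype.card_subtype_compl, h2,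
    Fintype.card_prod, ZMod.card, sq, sq]

end PrimePower

/-! ### The Dedekind psi function -/

open ModularCurve

theorem dedekindPsi_prime_pow {p k : ℕ} (hp : p.Prime) (hk : 0 < k) :
    dedekindPsi (p ^ k) = p ^ k + p ^ (k - 1) := by
  obtain ⟨j, rfl⟩ : ∃ j, k = j + 1 := ⟨k - 1, by omega⟩
  rw [dedekindPsi, Nat.divisors_prime_pow hp, Finset.sum_filter, Finset.sum_map]
  simp only [Function.Embedding.coeFn_mk, Nat.add_sub_cancel]
  rw [Finset.sum_range_succ', Finset.sum_range_succ']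
  have h0 : ∀ i ∈ Finset.range j,
      (if Squarefree (p ^ (i + 1 + 1)) then p ^ (j + 1) / p ^ (i + 1 + 1) else 0) = 0 := by
    intro i _
    rw [if_neg]
    rw [Nat.squarefree_pow_iff hp.ne_one (by omega)]
    rintro ⟨_, h⟩
    omega
  rw [Finset.sum_eq_zero h0]
  simp only [zero_add, pow_zero, pow_one, squarefree_one, if_true, Nat.div_one]
  rw [if_pos hp.squarefree, pow_succ, Nat.mul_div_cancel _ hp.pos]
  ring

/-- The squarefree indicator as an arithmetic function. -/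
def sqfInd : ArithmeticFunction ℕ :=
  ⟨fun n => if Squarefree n then 1 else 0, by simp⟩

theorem sqfInd_apply (n : ℕ) : sqfInd n = if Squarefree n then 1 else 0 := rfl

theorem sqfInd_isMultiplicative : sqfInd.IsMultiplicative := by
  refine ⟨by simp [sqfInd_apply], ?_⟩
  intro m n h
  simp only [sqfInd_apply, Nat.squarefree_mul h]
  by_cases hm : Squarefree m <;> by_cases hn : Squarefree n <;> simp [hm, hn]

theorem dedekindPsi_eq_conv (n : ℕ) : dedekindPsi n = (sqfInd * ArithmeticFunction.id) n := by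
  rw [ArithmeticFunction.mul_apply, Nat.sum_divisorsAntidiagonal
    (f := fun i j => sqfInd i * ArithmeticFunction.id j), dedekindPsi, Finset.sum_filter]
  refine Finset.sum_congr rfl fun d _ => ?_
  rw [sqfInd_apply]
  split_ifs <;> simp

theorem dedekindPsi_mul {m n : ℕ} (h : m.Coprime n) :
    dedekindPsi (m * n) = dedekindPsi m * dedekindPsi n := by
  simp only [dedekindPsi_eq_conv]
  exact (sqfInd_isMultiplicative.mul ArithmeticFunction.isMultiplicative_id).map_mul_of_coprime h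

/-- The number of primitive vectors in `(ℤ/N)²` is `φ(N) ψ(N)`. -/
theorem card_prim (N : ℕ) (hN : N ≠ 0) : Nat.card (Prim N) = φ N * dedekindPsi N := by
  induction N using Nat.recOnPosPrimePosCoprime with
  | zero => exact absurd rfl hN
  | one =>
    have h1 : Subsingleton (Prim 1) := inferInstance
    have h2 : Nonempty (Prim 1) := ⟨⟨(0, 0), ⟨0, 0, Subsingleton.elim _ _⟩⟩⟩
    have : Inhabited (Prim 1) := ⟨⟨(0, 0), ⟨0, 0, Subsingleton.elim _ _⟩⟩⟩
    have : Unique (Prim 1) := Unique.mk' _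
    rw [Nat.card_unique]
    simp
  | prime_pow p k hp hk =>
    rw [card_prim_prime_pow hp hk, Nat.totient_prime_pow hp hk, dedekindPsi_prime_pow hp hk]
    obtain ⟨j, rfl⟩ : ∃ j, k = j + 1 := ⟨k - 1, by omega⟩
    obtain ⟨r, rfl⟩ : ∃ r, p = r + 1 := ⟨p - 1, by have := hp.pos; omega⟩
    simp only [Nat.add_sub_cancel]
    rw [pow_succ]
    apply Nat.sub_eq_of_eq_add
    ring
  | coprime a b ha hb hab iha ihb =>
    rw [card_prim_mul hab, iha (by omega), ihb (by omega), Nat.totient_mul hab,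
      dedekindPsi_mul hab]
    ring

end Fermat.Agent.S20_helper27
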