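/-
The index of `Γ₀(N)` in `SL(2,ℤ)` is the Dedekind psi function.
-/
import Fermat.Agent.S20_helper27.Basic
import Fermat.Agent.S20_helper27.Prim

set_option autoImplicit false

namespace Fermat.Agent.S20_helper27

open Matrix MatrixGroups CongruenceSubgroup ModularGroup

/-! ### Lifting primitive vectors -/

theorem exists_coprime_add_mul (x m n : ℕ) (hm : m ≠ 0)
    (hx : ∀ p : ℕ, p.Prime → p ∣ x → p ∣ m → p ∣ n → False) :
    ∃ k : ℕ, (x + k * n).Coprime m := by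
  let ps : Finset ℕ := {p ∈ m.primeFactors | ¬p ∣ x}
  use ps.prod id
  apply Nat.coprime_of_dvd
  intro p pp hp hpn
  by_cases hpx : p ∣ x
  · have h := Nat.dvd_sub hp hpx
    rw [add_comm, Nat.add_sub_cancel] at h
    rcases pp.dvd_mul.mp h with h | h
    · have ⟨q, hq, hq'⟩ := (pp.prime.dvd_finsetProd_iff id).mp h
      rw [Finset.mem_filter, Nat.mem_primeFactors,
        ← (Nat.prime_dvd_prime_iff_eq pp hq.1.1).mp hq'] at hq
      exact hq.2 hpx
    · exact hx p pp hpx hpn h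
  · have pps : p ∈ ps := Finset.mem_filter.mpr ⟨Nat.mem_primeFactors.mpr ⟨pp, hpn, hm⟩, hpx⟩
    have h := Nat.dvd_sub hp ((Finset.dvd_prod_of_mem id pps).mul_right n)
    rw [Nat.add_sub_cancel] at h
    contradiction

variable {N : ℕ}

/-- If `a, c` are coprime in `ℤ/N` then no prime divides `N` and (lifts of) both. -/
theorem no_common_prime_of_isCoprime [NeZero N] {a c : ℕ}
    (h : IsCoprime (a : ZMod N) (c : ZMod N)) (p : ℕ) (pp : p.Prime) (ha : p ∣ a) (hc : p ∣ c)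
    (hN : p ∣ N) : False := by
  obtain ⟨x, y, hxy⟩ := h
  have h1 : ((x.val * a + y.val * c : ℕ) : ZMod N) = ((1 : ℕ) : ZMod N) := by
    push_cast
    simp only [ZMod.natCast_zmod_val]
    exact hxy
  rw [ZMod.natCast_eq_natCast_iff] at h1
  have h2 : p ∣ x.val * a + y.val * c :=
    dvd_add (dvd_mul_of_dvd_right ha _) (dvd_mul_of_dvd_right hc _)
  have h4 := (h1.of_dvd hN).symm.trans ((Nat.modEq_zero_iff_dvd).2 h2)
  exact pp.one_lt.ne' (Nat.dvd_one.1 ((Nat.modEq_zero_iff_dvd).1 h4))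

/-- Every primitive vector mod `N` is the first column of an element of `SL(2,ℤ)`. -/
theorem exists_SL_of_isCoprime [NeZero N] (a c : ZMod N) (h : IsCoprime a c) :
    ∃ g : SL(2, ℤ), ((g 0 0 : ℤ) : ZMod N) = a ∧ ((g 1 0 : ℤ) : ZMod N) = c := by
  -- natural number lifts, with `c₁ ≠ 0`
  obtain ⟨c₁, hc₁, hc₁'⟩ : ∃ c₁ : ℕ, c₁ ≠ 0 ∧ (c₁ : ZMod N) = c := by
    by_cases hc : c.val = 0
    · refine ⟨N, NeZero.ne N, ?_⟩
      rw [ZMod.natCast_self, ← ZMod.natCast_zmod_val c, hc, Nat.cast_zero]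
    · exact ⟨c.val, hc, ZMod.natCast_zmod_val c⟩
  have h' : IsCoprime ((a.val : ℕ) : ZMod N) ((c₁ : ℕ) : ZMod N) := by
    rw [ZMod.natCast_zmod_val, hc₁']; exact h
  obtain ⟨k, hk⟩ := exists_coprime_add_mul a.val c₁ N hc₁
    (fun p pp ha hc hN => no_common_prime_of_isCoprime h' p pp ha hc hN)
  have hk' : IsCoprime ((a.val + k * N : ℕ) : ℤ) ((c₁ : ℕ) : ℤ) := Nat.isCoprime_iff_coprime.2 hk
  obtain ⟨x, y, hxy⟩ := hk'
  refine ⟨mkSL ((a.val + k * N : ℕ) : ℤ) (-y) (c₁ : ℤ) x (by linear_combination hxy), ?_, ?_⟩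
  · simp
  · simpa using hc₁'

/-! ### The first column map -/

/-- The first column of `g` mod `N`, as a primitive vector. -/
def col (N : ℕ) (g : SL(2, ℤ)) : Prim N :=
  ⟨(((g 0 0 : ℤ) : ZMod N), ((g 1 0 : ℤ) : ZMod N)),
    ⟨((g 1 1 : ℤ) : ZMod N), -((g 0 1 : ℤ) : ZMod N), by
      have := det_eq_zmod (N := N) g
      linear_combination this⟩⟩

theorem col_surjective [NeZero N] : Function.Surjective (col N) := by
  rintro ⟨⟨a, c⟩, h⟩
  obtain ⟨g, h1, h2⟩ := exists_SL_of_isCoprime a c h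
  exact ⟨g, Subtype.ext (Prod.ext h1 h2)⟩

/-- Units act on primitive vectors. -/
def usmul (u : (ZMod N)ˣ) (v : Prim N) : Prim N :=
  ⟨((u : ZMod N) * v.1.1, (u : ZMod N) * v.1.2), by
    obtain ⟨x, y, hxy⟩ := v.2
    exact ⟨x * ((u⁻¹ : (ZMod N)ˣ) : ZMod N), y * ((u⁻¹ : (ZMod N)ˣ) : ZMod N), by
      have hu : ((u⁻¹ : (ZMod N)ˣ) : ZMod N) * (u : ZMod N) = 1 := by simp
      linear_combination hxy + (x * v.1.1 + y * v.1.2) * hu⟩⟩

theorem usmul_injective_left (v : Prim N) : Function.Injective fun u : (ZMod N)ˣ => usmul u v := by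
  intro u u' h
  obtain ⟨x, y, hxy⟩ := v.2
  have h1 : (u : ZMod N) * v.1.1 = (u' : ZMod N) * v.1.1 := congrArg (fun w : Prim N => w.1.1) h
  have h2 : (u : ZMod N) * v.1.2 = (u' : ZMod N) * v.1.2 := congrArg (fun w : Prim N => w.1.2) h
  apply Units.ext
  linear_combination (u' - u : ZMod N) * hxy + x * h1 + y * h2

/-- Same coset iff first columns differ by a unit. -/
theorem mk_eq_mk_iff_exists_unit (g h : SL(2, ℤ)) :
    (QuotientGroup.mk g : XN N) = QuotientGroup.mk h ↔ ∃ u : (ZMod N)ˣ, col N h = usmul u (col N g) := by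
  constructor
  · intro hgh
    have hmem : g⁻¹ * h ∈ Gamma0 N := QuotientGroup.eq.1 hgh
    set γ := g⁻¹ * h with hγ
    have hh : h = g * γ := by rw [hγ]; group
    have h10 : ((γ 1 0 : ℤ) : ZMod N) = 0 := hmem
    have hdet := det_eq_zmod (N := N) γ
    rw [h10, mul_zero, sub_zero] at hdet
    refine ⟨⟨((γ 0 0 : ℤ) : ZMod N), ((γ 1 1 : ℤ) : ZMod N), hdet, by rw [mul_comm]; exact hdet⟩, ?_⟩
    apply Subtype.ext
    have e00 : (g * γ) 0 0 = g 0 0 * γ 0 0 + g 0 1 * γ 1 0 := by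
      rw [Matrix.SpecialLinearGroup.coe_mul, Matrix.mul_apply, Fin.sum_univ_two]
    have e10 : (g * γ) 1 0 = g 1 0 * γ 0 0 + g 1 1 * γ 1 0 := by
      rw [Matrix.SpecialLinearGroup.coe_mul, Matrix.mul_apply, Fin.sum_univ_two]
    apply Prod.ext
    · show ((h 0 0 : ℤ) : ZMod N) = ((γ 0 0 : ℤ) : ZMod N) * ((g 0 0 : ℤ) : ZMod N)
      rw [hh, e00]; push_cast; rw [h10]; ring
    · show ((h 1 0 : ℤ) : ZMod N) = ((γ 0 0 : ℤ) : ZMod N) * ((g 1 0 : ℤ) : ZMod N)
      rw [hh, e10]; push_cast; rw [h10]; ring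
  · rintro ⟨u, hu⟩
    rw [mk_eq_mk_iff]
    have h1 : ((h 0 0 : ℤ) : ZMod N) = (u : ZMod N) * ((g 0 0 : ℤ) : ZMod N) :=
      congrArg (fun w : Prim N => w.1.1) hu
    have h2 : ((h 1 0 : ℤ) : ZMod N) = (u : ZMod N) * ((g 1 0 : ℤ) : ZMod N) :=
      congrArg (fun w : Prim N => w.1.2) hu
    rw [h1, h2]; ring

/-- The bijection `X_N × (ℤ/N)ˣ ≃ Prim N`. -/
theorem bijective_param [NeZero N] :
    Function.Bijective fun xu : XN N × (ZMod N)ˣ => usmul xu.2 (col N xu.1.out) := by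
  constructor
  · rintro ⟨x, u⟩ ⟨x', u'⟩ hxu
    simp only at hxu
    have hx : x = x' := by
      rw [← QuotientGroup.out_eq' x, ← QuotientGroup.out_eq' x']
      show (QuotientGroup.mk x.out : XN N) = QuotientGroup.mk x'.out
      rw [mk_eq_mk_iff_exists_unit]
      refine ⟨u'⁻¹ * u, ?_⟩
      apply Subtype.ext
      have h1 : (u : ZMod N) * (col N x.out).1.1 = (u' : ZMod N) * (col N x'.out).1.1 :=
        congrArg (fun w : Prim N => w.1.1) hxu
      have h2 : (u : ZMod N) * (col N x.out).1.2 = (u' : ZMod N) * (col N x'.out).1.2 :=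
        congrArg (fun w : Prim N => w.1.2) hxu
      have hu' : ((u'⁻¹ : (ZMod N)ˣ) : ZMod N) * (u' : ZMod N) = 1 := by simp
      apply Prod.ext
      · show (col N x'.out).1.1 = ((u'⁻¹ * u : (ZMod N)ˣ) : ZMod N) * (col N x.out).1.1
        push_cast
        linear_combination (-(col N x'.out).1.1) * hu' - ((u'⁻¹ : (ZMod N)ˣ) : ZMod N) * h1
      · show (col N x'.out).1.2 = ((u'⁻¹ * u : (ZMod N)ˣ) : ZMod N) * (col N x.out).1.2
        push_cast
        linear_combination (-(col N x'.out).1.2) * hu' - ((u'⁻¹ : (ZMod N)ˣ) : ZMod N) * h2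
    subst hx
    have := usmul_injective_left (col N x.out) hxu
    rw [this]
  · intro v
    obtain ⟨g, rfl⟩ := col_surjective v
    have h : (QuotientGroup.mk (QuotientGroup.mk g : XN N).out : XN N) = QuotientGroup.mk g :=
      QuotientGroup.out_eq' _
    obtain ⟨u, hu⟩ := (mk_eq_mk_iff_exists_unit _ _).1 h
    exact ⟨(QuotientGroup.mk g, u), hu.symm⟩

/-- The index of `Γ₀(N)` in `SL(2,ℤ)` is `ψ(N)`. -/
theorem card_XN (N : ℕ) [NeZero N] : Nat.card (XN N) = ModularCurve.dedekindPsi N := by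
  have h := Nat.card_congr (Equiv.ofBijective _ (bijective_param (N := N)))
  rw [Nat.card_prod, card_prim N (NeZero.ne N), Nat.card_eq_fintype_card (α := (ZMod N)ˣ),
    ZMod.card_units_eq_totient, mul_comm] at h
  exact Nat.eq_of_mul_eq_mul_left (Nat.totient_pos.2 (Nat.pos_of_ne_zero (NeZero.ne N))) h

theorem index_Gamma0 (N : ℕ) [NeZero N] : (Gamma0 N).index = ModularCurve.dedekindPsi N := by
  rw [Subgroup.index_eq_card]; exact card_XN N

end Fermat.Agent.S20_helper27
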