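/-
Orbit counting for a group element whose `p`-th power acts trivially (`p` prime):
`p * #orbits = #X + (p - 1) * #Fix`.
-/
import Mathlib

set_option autoImplicit false

namespace Fermat.Agent.S20_helper27

open MulAction
open scoped Classical

variable {G X : Type*} [Group G] [MulAction G X]

theorem zpow_smul_eq_of_smul_eq {g : G} {x : X} (h : g • x = x) (k : ℤ) : g ^ k • x = x := by
  have : g ∈ stabilizer G x := h
  exact Subgroup.zpow_mem _ this k

theorem orbit_zpowers_eq_singleton {g : G} {x : X} (h : g • x = x) :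
    orbit (Subgroup.zpowers g) x = {x} := by
  ext y
  constructor
  · rintro ⟨⟨_, k, rfl⟩, rfl⟩
    exact zpow_smul_eq_of_smul_eq h k
  · rintro rfl
    exact mem_orbit_self _

theorem smul_eq_of_pow_smul_eq {g : G} {x : X} {p d : ℕ} (hdp : Nat.Coprime d p)
    (hp : g ^ p • x = x) (hd : g ^ d • x = x) : g • x = x := by
  have h1 : g ^ ((d : ℤ) * Int.gcdA d p + (p : ℤ) * Int.gcdB d p) • x = x := by
    rw [zpow_add, mul_smul, zpow_mul, zpow_mul, zpow_natCast, zpow_natCast,
      zpow_smul_eq_of_smul_eq hp, zpow_smul_eq_of_smul_eq hd]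
  rw [← Int.gcd_eq_gcd_ab, Int.gcd_natCast_natCast, hdp.gcd_eq_one] at h1
  simpa using h1

theorem card_orbit_zpowers (g : G) {p : ℕ} (hp : p.Prime) (hg : ∀ x : X, g ^ p • x = x) (x : X) :
    Nat.card (orbit (Subgroup.zpowers g) x) = if g • x = x then 1 else p := by
  split_ifs with h
  · rw [orbit_zpowers_eq_singleton h]
    simp
  · have hmem : ∀ i : Fin p, g ^ (i : ℕ) • x ∈ orbit (Subgroup.zpowers g) x := fun i =>
      ⟨⟨g ^ (i : ℕ), ⟨(i : ℕ), by simp⟩⟩, rfl⟩
    have hbij : Function.Bijective
        (fun i : Fin p => (⟨g ^ (i : ℕ) • x, hmem i⟩ : orbit (Subgroup.zpowers g) x)) := by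
      constructor
      · -- injective
        have key : ∀ i j : ℕ, i < j → j < p → g ^ i • x = g ^ j • x → False := by
          intro i j hij hjp hx
          have hd : g ^ (j - i) • x = x := by
            have : g ^ j = g ^ i * g ^ (j - i) := by rw [← pow_add]; congr 1; omega
            rw [this, mul_smul] at hx
            exact (smul_left_cancel _ hx).symm
          have hcop : Nat.Coprime (j - i) p := by
            rw [Nat.coprime_comm, hp.coprime_iff_not_dvd]
            intro hdvd
            have := Nat.le_of_dvd (by omega) hdvd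
            omega
          exact h (smul_eq_of_pow_smul_eq hcop (hg x) hd)
        intro i j hij
        have hx : g ^ (i : ℕ) • x = g ^ (j : ℕ) • x := congrArg Subtype.val hij
        rcases lt_trichotomy (i : ℕ) (j : ℕ) with hlt | heq | hgt
        · exact (key _ _ hlt j.2 hx).elim
        · exact Fin.ext heq
        · exact (key _ _ hgt i.2 hx.symm).elim
      · -- surjective
        rintro ⟨y, ⟨⟨_, k, rfl⟩, rfl⟩⟩
        have hp0 : (p : ℤ) ≠ 0 := by exact_mod_cast hp.ne_zero
        have hk : k = k % p + p * (k / p) := (Int.emod_add_mul_ediv k p).symm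
        have hnn : 0 ≤ k % p := Int.emod_nonneg k hp0
        have hlt : k % p < p := Int.emod_lt_of_pos k (by exact_mod_cast hp.pos)
        refine ⟨⟨(k % p).toNat, by omega⟩, ?_⟩
        apply Subtype.ext
        show g ^ (k % p).toNat • x = (⟨g ^ k, _⟩ : Subgroup.zpowers g) • x
        have h1 : g ^ k • x = g ^ (k % p) • x := by
          conv_lhs => rw [hk, zpow_add, mul_smul, zpow_mul, zpow_natCast,
            zpow_smul_eq_of_smul_eq (hg x)]
        have h2 : g ^ (k % p) = g ^ (k % p).toNat := by
          rw [← zpow_natCast, Int.toNat_of_nonneg hnn]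
        rw [← h2, ← h1]
        rfl
    rw [← Nat.card_congr (Equiv.ofBijective _ hbij), Nat.card_fin]

theorem prime_mul_card_orbits [Finite X] (g : G) {p : ℕ} (hp : p.Prime)
    (hg : ∀ x : X, g ^ p • x = x) :
    p * Nat.card (orbitRel.Quotient (Subgroup.zpowers g) X)
      = Nat.card X + (p - 1) * Nat.card {x : X // g • x = x} := by
  set H := Subgroup.zpowers g
  let Ω := orbitRel.Quotient H X
  have : Fintype X := Fintype.ofFinite X
  have : Finite Ω := Quotient.finite _
  have : Fintype Ω := Fintype.ofFinite Ω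
  have hout : ∀ ω : Ω, ω.orbit = orbit H ω.out := fun ω =>
    orbitRel.Quotient.orbit_eq_orbit_out ω Quotient.out_eq'
  have h1 : Nat.card X = ∑ ω : Ω, (if g • ω.out = ω.out then 1 else p) := by
    rw [Nat.card_congr (selfEquivSigmaOrbits' H X), Nat.card_sigma]
    refine Finset.sum_congr rfl fun ω _ => ?_
    rw [hout ω, card_orbit_zpowers g hp hg]
  -- fixed points correspond to fixed classes
  have hfix : Nat.card {x : X // g • x = x} = Nat.card {ω : Ω // g • ω.out = ω.out} := by
    refine Nat.card_congr (Equiv.ofBijective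
      (fun x : {x : X // g • x = x} => (⟨(Quotient.mk'' x.1 : Ω), ?_⟩ :
        {ω : Ω // g • ω.out = ω.out})) ⟨?_, ?_⟩)
    · have hmem : (Quotient.mk'' x.1 : Ω).out ∈ orbit H x.1 := by
        rw [← orbitRel_apply]
        exact Quotient.exact (Quotient.out_eq' _)
      rw [orbit_zpowers_eq_singleton x.2] at hmem
      rw [Set.mem_singleton_iff.1 hmem]; exact x.2
    · intro x y hxy
      have h2 : (Quotient.mk'' x.1 : Ω) = Quotient.mk'' y.1 := congrArg Subtype.val hxy
      have h3 : x.1 ∈ orbit H y.1 := by
        rw [← orbitRel_apply]; exact Quotient.exact h2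
      rw [orbit_zpowers_eq_singleton y.2] at h3
      exact Subtype.ext (Set.mem_singleton_iff.1 h3)
    · rintro ⟨ω, hω⟩
      exact ⟨⟨ω.out, hω⟩, Subtype.ext (Quotient.out_eq' ω)⟩
  rw [hfix, h1, Finset.sum_ite, Finset.sum_const, Finset.sum_const, smul_eq_mul, smul_eq_mul,
    mul_one, Nat.card_eq_fintype_card (α := Ω), Nat.card_eq_fintype_card,
    Fintype.card_subtype]
  have hsplit : Fintype.card Ω = (Finset.univ.filter fun ω : Ω => g • ω.out = ω.out).card
      + (Finset.univ.filter fun ω : Ω => ¬ g • ω.out = ω.out).card := by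
    rw [Finset.card_filter_add_card_filter_not, Finset.card_univ]
  rw [hsplit]
  obtain ⟨r, rfl⟩ : ∃ r, p = r + 1 := ⟨p - 1, by have := hp.pos; omega⟩
  simp only [Nat.add_sub_cancel]
  ring

end Fermat.Agent.S20_helper27
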