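/-
Orbit counts of `S` and `S * T` on `SL(2,ℤ) ⧸ Γ₀(N)`, and the genus formula in terms of
orbit counts.
-/
import Fermat.Agent.S20_helper27.Index
import Fermat.Agent.S20_helper27.Fixed
import Fermat.Agent.S20_helper27.Orbits

set_option autoImplicit false

namespace Fermat.Agent.S20_helper27

open Matrix MatrixGroups CongruenceSubgroup ModularGroup MulAction

variable {N : ℕ}

theorem S_sq_smul (x : XN N) : S ^ 2 • x = x := by
  induction x using QuotientGroup.induction_on with
  | H g =>
    rw [smul_mk, mk_eq_mk_iff, pow_two, mul_assoc, (S_mul_apply (S * g)).1,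
      (S_mul_apply (S * g)).2, (S_mul_apply g).1, (S_mul_apply g).2]
    push_cast
    ring

theorem ST_cube_smul (x : XN N) : (S * T) ^ 3 • x = x := by
  induction x using QuotientGroup.induction_on with
  | H g =>
    have e : (S * T) ^ 3 * g = S * T * (S * T * (S * T * g)) := by
      rw [pow_succ, pow_two]; group
    have h1 := ST_mul_apply g
    have h2 := ST_mul_apply (S * T * g)
    have h3 := ST_mul_apply (S * T * (S * T * g))
    rw [smul_mk, mk_eq_mk_iff, e, h3.1, h3.2, h2.1, h2.2, h1.1, h1.2]
    push_cast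
    ring

instance [NeZero N] : Finite (XN N) := by
  have : (Gamma0 N).FiniteIndex := inferInstance
  exact Subgroup.finite_quotient_of_finiteIndex

/-- `2 * #(orbits of S) = ψ(N) + ν₂(N)`. -/
theorem two_mul_card_orbits_S (N : ℕ) [NeZero N] :
    2 * Nat.card (orbitRel.Quotient (Subgroup.zpowers S) (XN N))
      = ModularCurve.dedekindPsi N + ModularCurve.nuTwo N := by
  have h := prime_mul_card_orbits (X := XN N) S Nat.prime_two S_sq_smul
  refine h.trans ?_
  rw [card_XN, card_fixed_S]
  simp

/-- `3 * #(orbits of ST) = ψ(N) + 2 ν₃(N)`. -/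
theorem three_mul_card_orbits_ST (N : ℕ) [NeZero N] :
    3 * Nat.card (orbitRel.Quotient (Subgroup.zpowers (S * T)) (XN N))
      = ModularCurve.dedekindPsi N + 2 * ModularCurve.nuThree N := by
  have h := prime_mul_card_orbits (X := XN N) (S * T) Nat.prime_three ST_cube_smul
  refine h.trans ?_
  rw [card_XN, card_fixed_ST]

/-- The genus formula in terms of orbit counts: `2 g = 2 + μ - μ₂ - μ₃ - ν∞`. -/
theorem two_mul_genusFormula (N : ℕ) [NeZero N] :
    2 * ModularCurve.genusFormula N
      = 2 + (ModularCurve.dedekindPsi N : ℚ)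
        - (Nat.card (orbitRel.Quotient (Subgroup.zpowers S) (XN N)) : ℚ)
        - (Nat.card (orbitRel.Quotient (Subgroup.zpowers (S * T)) (XN N)) : ℚ)
        - (ModularCurve.cuspCount N : ℚ) := by
  have h2 : (2 : ℚ) * (Nat.card (orbitRel.Quotient (Subgroup.zpowers S) (XN N)) : ℚ)
      = (ModularCurve.dedekindPsi N : ℚ) + (ModularCurve.nuTwo N : ℚ) := by
    exact_mod_cast two_mul_card_orbits_S N
  have h3 : (3 : ℚ) * (Nat.card (orbitRel.Quotient (Subgroup.zpowers (S * T)) (XN N)) : ℚ)
      = (ModularCurve.dedekindPsi N : ℚ) + 2 * (ModularCurve.nuThree N : ℚ) := by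
    exact_mod_cast three_mul_card_orbits_ST N
  rw [ModularCurve.genusFormula]
  linarith

end Fermat.Agent.S20_helper27
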